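/-
MAZ row 738 (T1B-U3' TORS), brick U3'-MODEL, part (c) INCOMPARABILITY (helper70), file 1: ABSTRACT PART.

The node rings `R_j ⧸ (P_j 0 ⊔ P_j 1)` of the nodal special fibre are finite only if the two vertical
primes `P_j 0`, `P_j 1` of each chart are DISTINCT, a fact which is not part of `RedN3.NodalGood`.
This file proves the two abstract halves:

* `le_of_le_of_finite_aeval` (c1): `R` finite over `A[t]`, `P ≤ Q` ideals of `R`, `P` prime, and `t`
  transcendental modulo `Q` (divisibility test `htr`) ⇒ `Q ≤ P`  (no proper inclusion between two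
  components: going-up for the integral extension `A[t] → R`);
* `NodalGood.P0_eq_of_le`, `NodalGood.P1_eq_of_le` : the same for the vertical primes of
  `hg : NodalGood c p ι`;
* `le_of_vert_eq` (c2): a chart `B ⊆ O1 ⊓ O2` of a field `F` (`O1`, `O2` valuation rings with
  uniformiser `π`, of rank one, `B` saturated and with fraction field `F`): if `B ∩ π O1 = B ∩ π O2`
  then `O1 ≤ O2`  (both are the localisation of `B` at that prime);
* `eq_of_vert_eq` : hence `O1 = O2`.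
-/
import Mathlib
import Fermat.Agent.T1B.RedN3.Iface

set_option autoImplicit false
set_option linter.unusedSectionVars false
set_option linter.style.haveILetI false

open Polynomial

namespace Fermat.Agent.MAZ.PicFinModel70

/-! ### (c1) no proper inclusion between two components -/

section GoingUp

variable {A R : Type*} [CommRing A] [CommRing R] [Algebra A R]

/-- `R` is integral over `A[t]` when `Module.AEval A R t` is a finite `A[X]`-module. -/
theorem isIntegralElem_aeval_of_finite (t : R) (hfin : Module.Finite A[X] (Module.AEval A R t))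
    (x : R) : ((aeval t : A[X] →ₐ[A] R) : A[X] →+* R).IsIntegralElem x := by
  letI : Algebra A[X] R := ((aeval t : A[X] →ₐ[A] R) : A[X] →+* R).toAlgebra
  let eR : R ≃ₗ[A[X]] Module.AEval A R t :=
    { (Module.AEval.of A R t).toAddEquiv with
      map_smul' := fun p r => by
        show Module.AEval.of A R t (aeval t p • r) = p • Module.AEval.of A R t r
        exact Module.AEval.of_aeval_smul t p r }
  haveI : Module.Finite A[X] R := Module.Finite.equiv eR.symm
  exact Algebra.IsIntegral.isIntegral (R := A[X]) x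

/-- **(c1)** `R` finite over `A[t]`, `P ≤ Q`, `P` prime, `p ∈ P` and `t` transcendental modulo `Q`
over `A / p` (in the divisibility form used by `Bal60.quotComp`): then `Q ≤ P`. -/
theorem le_of_le_of_finite_aeval (t : R) (hfin : Module.Finite A[X] (Module.AEval A R t)) (p : A)
    (P Q : Ideal R) [hP : P.IsPrime] (hpP : algebraMap A R p ∈ P) (hPQ : P ≤ Q)
    (htr : ∀ q : A[X], aeval t q ∈ Q → (C p : A[X]) ∣ q) : Q ≤ P := by
  intro x hxQ
  by_contra hxP
  set f : A[X] →+* R := ((aeval t : A[X] →ₐ[A] R) : A[X] →+* R) with hf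
  obtain ⟨g, hgm, hg0⟩ := isIntegralElem_aeval_of_finite t hfin x
  have hne : (P.comap f) ≠ ⊤ := Ideal.comap_ne_top f hP.ne_top
  haveI : Nontrivial (A[X] ⧸ P.comap f) := Ideal.Quotient.nontrivial_iff.2 hne
  have hg1 : g.map (Ideal.Quotient.mk (P.comap f)) ≠ 0 :=
    (hgm.map (Ideal.Quotient.mk (P.comap f))).ne_zero
  have hgP : g.eval₂ f x ∈ P := by
    rw [hg0]
    exact P.zero_mem
  obtain ⟨i, hiQ, hiP⟩ := Ideal.exists_coeff_mem_comap_sdiff_comap_of_root_mem_sdiff hPQ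
    (show x ∈ (Q : Set R) \ P from ⟨hxQ, hxP⟩) hg1 hgP
  have hiQ' : aeval t (g.coeff i) ∈ Q := hiQ
  obtain ⟨q', hq'⟩ := htr _ hiQ'
  apply hiP
  show f (g.coeff i) ∈ P
  rw [hq', map_mul]
  refine P.mul_mem_right _ ?_
  show aeval t (C p : A[X]) ∈ P
  rw [aeval_C]
  exact hpP

end GoingUp

section Nodal

open Fermat.Agent.Jac Fermat.Agent.T1B.RedN3

universe u

variable {A R0 R1 R01 : Type u} [CommRing A] [CommRing R0] [CommRing R1] [CommRing R01]
  [Algebra A R0] [Algebra A R1] [Algebra A R01] [Algebra R0 R01] [Algebra R1 R01]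
  [IsScalarTower A R0 R01] [IsScalarTower A R1 R01]
  {c : TwoChart A R0 R1 R01} {p : A} {ι : Type}

/-- Two comparable vertical primes on chart `0` are equal. -/
theorem NodalGood.P0_eq_of_le (hg : NodalGood c p ι)
    (fin0 : Module.Finite A[X] (Module.AEval A R0 c.t)) {i j : ι}
    (htr0 : ∀ q : A[X], aeval c.t q ∈ hg.P0 j → (C p : A[X]) ∣ q)
    (hle : hg.P0 i ≤ hg.P0 j) : hg.P0 i = hg.P0 j :=
  haveI := hg.prime0 i
  le_antisymm hle (le_of_le_of_finite_aeval c.t fin0 p _ _ (hg.mem0 i) hle htr0)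

/-- Two comparable vertical primes on chart `1` are equal. -/
theorem NodalGood.P1_eq_of_le (hg : NodalGood c p ι)
    (fin1 : Module.Finite A[X] (Module.AEval A R1 c.s)) {i j : ι}
    (htr1 : ∀ q : A[X], aeval c.s q ∈ hg.P1 j → (C p : A[X]) ∣ q)
    (hle : hg.P1 i ≤ hg.P1 j) : hg.P1 i = hg.P1 j :=
  haveI := hg.prime1 i
  le_antisymm hle (le_of_le_of_finite_aeval c.s fin1 p _ _ (hg.mem1 i) hle htr1)

end Nodal

/-! ### (c2) a chart with the same vertical prime along two valuation rings -/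

section Vert

variable {R F : Type*} [CommRing R] [Field F] [Algebra R F]
  (π : R) (B : Subalgebra R F) (O1 O2 : ValuationSubring F)

/-- **(c2)** If the chart `B ⊆ O1 ⊓ O2` has the same vertical prime along `O1` and `O2`
(`B ∩ π O1 = B ∩ π O2`), then `O1 ≤ O2`: both are the localisation of `B` at that prime. -/
theorem le_of_vert_eq (hle1 : ∀ x ∈ B, x ∈ O1) (hle2 : ∀ x ∈ B, x ∈ O2)
    (pi_ne : algebraMap R F π ≠ 0) (nu1 : (algebraMap R F π)⁻¹ ∉ O1)
    (unif2 : ∀ x ∈ O2, x⁻¹ ∉ O2 → ∃ c ∈ O2, x = algebraMap R F π * c)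
    (arch1 : ∀ x : F, ∃ k : ℕ, algebraMap R F π ^ k * x ∈ O1)
    (sat : ∀ b ∈ B, ∀ c : F, c ∈ O1 → c ∈ O2 → b = algebraMap R F π * c → c ∈ B)
    (frac : ∀ x : F, ∃ a ∈ B, ∃ b ∈ B, b ≠ 0 ∧ x * b = a)
    (H12 : ∀ x ∈ B, (∃ c ∈ O1, x = algebraMap R F π * c) → ∃ c ∈ O2, x = algebraMap R F π * c)
    (H21 : ∀ x ∈ B, (∃ c ∈ O2, x = algebraMap R F π * c) → ∃ c ∈ O1, x = algebraMap R F π * c)
    (z : F) (hz : z ∈ O1) : z ∈ O2 := by
  set ϖ : F := algebraMap R F π with hϖ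
  -- dividing by `π` inside `B`
  have hdiv : ∀ x ∈ B, ∀ c ∈ O1, x = ϖ * c → c ∈ B := by
    intro x hx c hc hxc
    obtain ⟨c', hc', hxc'⟩ := H12 x hx ⟨c, hc, hxc⟩
    have : c = c' := mul_left_cancel₀ pi_ne (hxc.symm.trans hxc')
    subst this
    exact sat x hx c hc hc' hxc
  -- (1) every nonzero `b ∈ B` is `π ^ k * b'` with `b' ∈ B ∖ π O1`
  have h1 : ∀ (N : ℕ) (b : F), b ∈ B → b ≠ 0 → ϖ ^ N * b⁻¹ ∈ O1 →
      ∃ (k : ℕ) (b' : F), b' ∈ B ∧ (¬ ∃ c ∈ O1, b' = ϖ * c) ∧ b = ϖ ^ k * b' := by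
    intro N
    induction N with
    | zero =>
      intro b hb hb0 hN
      refine ⟨0, b, hb, ?_, by rw [pow_zero, one_mul]⟩
      rintro ⟨c, hc, hbc⟩
      apply nu1
      have : ϖ⁻¹ = c * b⁻¹ := by
        rw [hbc, mul_inv, ← mul_assoc, mul_comm c, mul_assoc, mul_comm c]
        have hc0 : c ≠ 0 := by
          rintro rfl
          exact hb0 (by rw [hbc, mul_zero])
        rw [inv_mul_cancel₀ hc0, mul_one]
      rw [this]
      rw [pow_zero, one_mul] at hN
      exact O1.mul_mem _ _ hc hN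
    | succ n ih =>
      intro b hb hb0 hN
      by_cases hbπ : ∃ c ∈ O1, b = ϖ * c
      · obtain ⟨c, hc, hbc⟩ := hbπ
        have hcB : c ∈ B := hdiv b hb c hc hbc
        have hc0 : c ≠ 0 := by
          rintro rfl
          exact hb0 (by rw [hbc, mul_zero])
        have hN' : ϖ ^ n * c⁻¹ ∈ O1 := by
          have : ϖ ^ n * c⁻¹ = ϖ ^ (n + 1) * b⁻¹ := by
            rw [hbc, mul_inv, pow_succ, mul_assoc, ← mul_assoc ϖ, mul_inv_cancel₀ pi_ne, one_mul]
          rw [this]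
          exact hN
        obtain ⟨k, b', hb', hb'π, hcb'⟩ := ih c hcB hc0 hN'
        exact ⟨k + 1, b', hb', hb'π, by rw [hbc, hcb', pow_succ]; ring⟩
      · exact ⟨0, b, hb, hbπ, by rw [pow_zero, one_mul]⟩
  -- (2) `B ∩ π ^ k O1 = π ^ k B`
  have h2 : ∀ (k : ℕ) (a : F), a ∈ B → ∀ y ∈ O1, a = ϖ ^ k * y → y ∈ B := by
    intro k
    induction k with
    | zero =>
      intro a ha y _ hay
      rw [pow_zero, one_mul] at hay
      rw [← hay]
      exact ha
    | succ n ih =>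
      intro a ha y hy hay
      have hπO1 : ϖ ∈ O1 := hle1 _ (by
        rw [hϖ]
        exact B.algebraMap_mem π)
      have h3 : ϖ ^ n * y ∈ B :=
        hdiv a ha (ϖ ^ n * y) (O1.mul_mem _ _ (O1.pow_mem hπO1 n) hy) (by rw [hay, pow_succ]; ring)
      exact ih (ϖ ^ n * y) h3 y hy rfl
  -- the proof
  by_cases hz0 : z = 0
  · rw [hz0]
    exact O2.zero_mem
  obtain ⟨a, ha, b, hb, hb0, hzb⟩ := frac z
  obtain ⟨N, hN⟩ := arch1 b⁻¹
  obtain ⟨k, b', hb', hb'π, hbb'⟩ := h1 N b hb hb0 hN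
  have hb'0 : b' ≠ 0 := by
    rintro rfl
    exact hb0 (by rw [hbb', mul_zero])
  have hzb' : z * b' ∈ B := by
    refine h2 k a ha (z * b') (O1.mul_mem _ _ hz (hle1 _ hb')) ?_
    rw [← hzb, hbb']
    ring
  have hb'2 : ¬ ∃ c ∈ O2, b' = ϖ * c := fun h => hb'π (H21 b' hb' h)
  have hb'inv : b'⁻¹ ∈ O2 := by
    by_contra hcon
    exact hb'2 (unif2 b' (hle2 _ hb') hcon)
  have : z = z * b' * b'⁻¹ := by
    rw [mul_assoc, mul_inv_cancel₀ hb'0, mul_one]
  rw [this]
  exact O2.mul_mem _ _ (hle2 _ hzb') hb'inv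

/-- **(c2)** If the chart `B` has the same vertical prime along `O1` and `O2`, then `O1 = O2`. -/
theorem eq_of_vert_eq (hle1 : ∀ x ∈ B, x ∈ O1) (hle2 : ∀ x ∈ B, x ∈ O2)
    (pi_ne : algebraMap R F π ≠ 0) (nu1 : (algebraMap R F π)⁻¹ ∉ O1)
    (nu2 : (algebraMap R F π)⁻¹ ∉ O2)
    (unif1 : ∀ x ∈ O1, x⁻¹ ∉ O1 → ∃ c ∈ O1, x = algebraMap R F π * c)
    (unif2 : ∀ x ∈ O2, x⁻¹ ∉ O2 → ∃ c ∈ O2, x = algebraMap R F π * c)
    (arch1 : ∀ x : F, ∃ k : ℕ, algebraMap R F π ^ k * x ∈ O1)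
    (arch2 : ∀ x : F, ∃ k : ℕ, algebraMap R F π ^ k * x ∈ O2)
    (sat : ∀ b ∈ B, ∀ c : F, c ∈ O1 → c ∈ O2 → b = algebraMap R F π * c → c ∈ B)
    (frac : ∀ x : F, ∃ a ∈ B, ∃ b ∈ B, b ≠ 0 ∧ x * b = a)
    (H : ∀ x ∈ B, (∃ c ∈ O1, x = algebraMap R F π * c) ↔ ∃ c ∈ O2, x = algebraMap R F π * c) :
    O1 = O2 := by
  refine le_antisymm ?_ ?_
  · exact fun z hz => le_of_vert_eq π B O1 O2 hle1 hle2 pi_ne nu1 unif2 arch1 sat frac
      (fun x hx => (H x hx).1) (fun x hx => (H x hx).2) z hz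
  · exact fun z hz => le_of_vert_eq π B O2 O1 hle2 hle1 pi_ne nu2 unif1 arch2
      (fun b hb c h2 h1 hbc => sat b hb c h1 h2 hbc) frac
      (fun x hx => (H x hx).2) (fun x hx => (H x hx).1) z hz

end Vert

end Fermat.Agent.MAZ.PicFinModel70
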