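/-
MAZ row 738 (T1B-U3' TORS), brick U3'-MODEL, part (c) INCOMPARABILITY (helper70), file 2: THE NODAL HUB.

`hg = NodalFacts23.nodalGood_of_equiv c0 M' e0 e1 e01 h0 h1` the nodal special fibre of the hub over
`O` (`M' : NodalTwoChartModel O F' π' t' B0' B1' O1' O2'`).  If the two Gauss valuation rings differ
(`h12 : O1' ≠ O2'`, concretely `ES/N34/OneNeTwo3.o1_ne_o2`) and `F'` is the fraction field of the
charts (`NodalNumData.frac0/frac1`), the two vertical primes of each chart are DISTINCT, and, the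
charts being finite over the line with transcendental coordinate on each component (`fin_j`,
`htr_j`: the inputs of `Bal60.quotComp`), INCOMPARABLE:

* `P0_ne_of_equiv`, `P1_ne_of_equiv`         : `hg.P_j 0 ≠ hg.P_j 1`;
* `not_P0_le_of_equiv`, `not_P1_le_of_equiv` : `i ≠ j → ¬ hg.P_j i ≤ hg.P_j j`;
* `not_transfer_P0_le`, `not_transfer_P1_le` : incomparability passes to
  `NodalBC53.Transfer.transfer c0 h hreg hg` (the complete levels `O_E`);
* `ker_ne_bot_of_not_le` : the literal shape `ker (A_j → Y_j) ≠ ⊥` (`hne0`, `hne1` of helper22's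
  `PicFinModel22.exists_pow_eq_one_torus`) on the special fibre `A_j = R_j / π`.
-/
import Mathlib
import Fermat.Agent.MAZ.PicFinModel70.Distinct
import Fermat.Agent.T1B.NodalFacts23.BaseChange
import Fermat.Agent.T1B.NodalBC53.Transfer

set_option autoImplicit false
set_option linter.unusedSectionVars false
set_option linter.style.haveILetI false

universe u

open TensorProduct Polynomial

namespace Fermat.Agent.MAZ.PicFinModel70

open Fermat.Agent.ES.N34.NodalCore13 Fermat.Agent.Jac Fermat.Agent.T1B.RedN3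
open Fermat.Agent.Jac.BaseChange75 Fermat.Agent.T1B.NodalFacts23
open scoped Fermat.Agent.Jac.BaseChange75
open Fermat.Agent.T1.ModelCoh30 (ρ0 ρ1)

/-! ### The literal shape of `hne` -/

section Rings

variable {R R' D : Type*} [CommRing R] [CommRing R'] [CommRing D]

/-- `a : R → R'` (the reduction `R_j → R_j / π`), `g' : R' → D` (the restriction to the component
`Y`) with `ker (g' ∘ a) = Q`; if `Q` is not contained in an ideal `P ⊇ ker a` (e.g. the other
vertical prime), then `ker g' ≠ ⊥`. -/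
theorem ker_ne_bot_of_not_le (a : R →+* R') (g' : R' →+* D) (P Q : Ideal R)
    (hQ : RingHom.ker (g'.comp a) = Q) (hker : RingHom.ker a ≤ P) (hne : ¬ Q ≤ P) :
    RingHom.ker g' ≠ ⊥ := by
  intro hbot
  apply hne
  intro x hx
  apply hker
  rw [← hQ, RingHom.mem_ker, RingHom.comp_apply] at hx
  have h1 : a x ∈ RingHom.ker g' := hx
  rw [hbot] at h1
  exact h1

end Rings

/-! ### The hub over `O` -/

section Hub

variable {W O : Type u} [CommRing W] [CommRing O] [Algebra W O]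
  {B0 B1 B01 : Type u} [CommRing B0] [CommRing B1] [CommRing B01]
  [Algebra W B0] [Algebra W B1] [Algebra W B01] [Algebra B0 B01] [Algebra B1 B01]
  [IsScalarTower W B0 B01] [IsScalarTower W B1 B01]
  {F' : Type u} [Field F'] [Algebra O F']
  {π' : O} {t' : F'} {B0' B1' : Subalgebra O F'} {O1' O2' : ValuationSubring F'}
  (c0 : TwoChart W B0 B1 B01)
  (M' : NodalTwoChartModel O F' π' t' B0' B1' O1' O2')
  (e0 : (O ⊗[W] B0) ≃ₐ[O] ↥B0') (e1 : (O ⊗[W] B1) ≃ₐ[O] ↥B1')
  (e01 : (O ⊗[W] B01) ≃ₐ[O] ↥(B0' ⊔ B1'))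
  (h0 : ∀ x : O ⊗[W] B0, e01 (algebraMap (O ⊗[W] B0) (O ⊗[W] B01) x) = ρ0 B0' B1' (e0 x))
  (h1 : ∀ x : O ⊗[W] B1, e01 (algebraMap (O ⊗[W] B1) (O ⊗[W] B01) x) = ρ1 B0' B1' (e1 x))

/-- **The two vertical primes of chart `0` are distinct.** -/
theorem P0_ne_of_equiv (frac0 : ∀ x : F', ∃ a ∈ B0', ∃ b ∈ B0', b ≠ 0 ∧ x * b = a)
    (h12 : O1' ≠ O2') :
    (nodalGood_of_equiv c0 M' e0 e1 e01 h0 h1).P0 0 ≠
      (nodalGood_of_equiv c0 M' e0 e1 e01 h0 h1).P0 1 := by
  intro heq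
  apply h12
  refine eq_of_vert_eq π' B0' O1' O2' M'.le_O1_0 M'.le_O2_0 M'.pi_ne M'.pi_nonunit1
    M'.pi_nonunit2 M'.unif1 M'.unif2 M'.arch1 M'.arch2 M'.sat0 frac0 ?_
  intro x hx
  have key : ∀ i : Fin 2, e0.symm ⟨x, hx⟩ ∈ (nodalGood_of_equiv c0 M' e0 e1 e01 h0 h1).P0 i ↔
      ∃ c ∈ comp O1' O2' i, x = algebraMap O F' π' * c := by
    intro i
    rw [mem_P0_of_equiv, e0.apply_symm_apply]
  have k0 := key 0
  have k1 := key 1
  rw [Fermat.Agent.T1B.NodalFacts23.comp_zero] at k0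
  rw [Fermat.Agent.T1B.NodalFacts23.comp_one] at k1
  rw [← k0, ← k1, heq]

/-- **The two vertical primes of chart `1` are distinct.** -/
theorem P1_ne_of_equiv (frac1 : ∀ x : F', ∃ a ∈ B1', ∃ b ∈ B1', b ≠ 0 ∧ x * b = a)
    (h12 : O1' ≠ O2') :
    (nodalGood_of_equiv c0 M' e0 e1 e01 h0 h1).P1 0 ≠
      (nodalGood_of_equiv c0 M' e0 e1 e01 h0 h1).P1 1 := by
  intro heq
  apply h12
  refine eq_of_vert_eq π' B1' O1' O2' M'.le_O1_1 M'.le_O2_1 M'.pi_ne M'.pi_nonunit1
    M'.pi_nonunit2 M'.unif1 M'.unif2 M'.arch1 M'.arch2 M'.sat1 frac1 ?_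
  intro x hx
  have key : ∀ i : Fin 2, e1.symm ⟨x, hx⟩ ∈ (nodalGood_of_equiv c0 M' e0 e1 e01 h0 h1).P1 i ↔
      ∃ c ∈ comp O1' O2' i, x = algebraMap O F' π' * c := by
    intro i
    rw [mem_P1_of_equiv, e1.apply_symm_apply]
  have k0 := key 0
  have k1 := key 1
  rw [Fermat.Agent.T1B.NodalFacts23.comp_zero] at k0
  rw [Fermat.Agent.T1B.NodalFacts23.comp_one] at k1
  rw [← k0, ← k1, heq]

/-- **The two vertical primes of chart `0` are incomparable.** -/
theorem not_P0_le_of_equiv (frac0 : ∀ x : F', ∃ a ∈ B0', ∃ b ∈ B0', b ≠ 0 ∧ x * b = a)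
    (h12 : O1' ≠ O2')
    (fin0 : Module.Finite O[X] (Module.AEval O (O ⊗[W] B0) (c0.baseChange O).t))
    (htr0 : ∀ i, ∀ q : O[X], aeval (c0.baseChange O).t q ∈
      (nodalGood_of_equiv c0 M' e0 e1 e01 h0 h1).P0 i → (C π' : O[X]) ∣ q)
    {i j : Fin 2} (hij : i ≠ j) :
    ¬ (nodalGood_of_equiv c0 M' e0 e1 e01 h0 h1).P0 i ≤
      (nodalGood_of_equiv c0 M' e0 e1 e01 h0 h1).P0 j := by
  intro hle
  have heq := NodalGood.P0_eq_of_le (nodalGood_of_equiv c0 M' e0 e1 e01 h0 h1) fin0 (htr0 j) hle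
  have hne := P0_ne_of_equiv c0 M' e0 e1 e01 h0 h1 frac0 h12
  fin_cases i <;> fin_cases j
  · exact hij rfl
  · exact hne heq
  · exact hne heq.symm
  · exact hij rfl

/-- **The two vertical primes of chart `1` are incomparable.** -/
theorem not_P1_le_of_equiv (frac1 : ∀ x : F', ∃ a ∈ B1', ∃ b ∈ B1', b ≠ 0 ∧ x * b = a)
    (h12 : O1' ≠ O2')
    (fin1 : Module.Finite O[X] (Module.AEval O (O ⊗[W] B1) (c0.baseChange O).s))
    (htr1 : ∀ i, ∀ q : O[X], aeval (c0.baseChange O).s q ∈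
      (nodalGood_of_equiv c0 M' e0 e1 e01 h0 h1).P1 i → (C π' : O[X]) ∣ q)
    {i j : Fin 2} (hij : i ≠ j) :
    ¬ (nodalGood_of_equiv c0 M' e0 e1 e01 h0 h1).P1 i ≤
      (nodalGood_of_equiv c0 M' e0 e1 e01 h0 h1).P1 j := by
  intro hle
  have heq := NodalGood.P1_eq_of_le (nodalGood_of_equiv c0 M' e0 e1 e01 h0 h1) fin1 (htr1 j) hle
  have hne := P1_ne_of_equiv c0 M' e0 e1 e01 h0 h1 frac1 h12
  fin_cases i <;> fin_cases j
  · exact hij rfl
  · exact hne heq
  · exact hne heq.symm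
  · exact hij rfl

end Hub

/-! ### Transfer to a base with the same special fibre -/

section Transfer

open Fermat.Agent.T1B.NodalBC53.Fibre Fermat.Agent.T1B.NodalBC53.Transfer

variable {W B0 B1 B01 : Type u} [CommRing W] [CommRing B0] [CommRing B1] [CommRing B01]
  [Algebra W B0] [Algebra W B1] [Algebra W B01] [Algebra B0 B01] [Algebra B1 B01]
  [IsScalarTower W B0 B01] [IsScalarTower W B1 B01]
  (c0 : TwoChart W B0 B1 B01)
  {O O' : Type u} [CommRing O] [CommRing O'] [Algebra W O] [Algebra W O'] [Algebra O O']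
  [IsScalarTower W O O']
  [Module.Flat W B0] [Module.Flat W B1] [Module.Flat W B01]
  {π : O} {ι : Type}
  (h : SameFibre (algebraMap O O') π)
  (hreg : ∀ z : O', algebraMap O O' π * z = 0 → z = 0)
  (hg : NodalGood (c0.baseChange O) π ι)

/-- Incomparability on chart `0` passes to the transferred `NodalGood`. -/
theorem not_transfer_P0_le {i j : ι} (hn : ¬ hg.P0 i ≤ hg.P0 j) :
    ¬ (transfer c0 h hreg hg).P0 i ≤ (transfer c0 h hreg hg).P0 j := by
  intro hle
  apply hn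
  rw [← comap_transfer_P0 c0 h hreg hg i, ← comap_transfer_P0 c0 h hreg hg j]
  exact Ideal.comap_mono hle

/-- Incomparability on chart `1` passes to the transferred `NodalGood`. -/
theorem not_transfer_P1_le {i j : ι} (hn : ¬ hg.P1 i ≤ hg.P1 j) :
    ¬ (transfer c0 h hreg hg).P1 i ≤ (transfer c0 h hreg hg).P1 j := by
  intro hle
  apply hn
  rw [← comap_transfer_P1 c0 h hreg hg i, ← comap_transfer_P1 c0 h hreg hg j]
  exact Ideal.comap_mono hle

end Transfer

end Fermat.Agent.MAZ.PicFinModel70
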